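import Fermat.Agent.SteinbergExport.Algebra
import Fermat.Agent.CarayolReduction.Main
import Fermat.Agent.JacCompare.Main
import Fermat.Agent.TateExport.Maps
import Fermat.Agent.HeckeCommute
import Fermat.Agent.Oddness.FrobeniusDet
import Fermat.Agent.ConductorLevel.Compare
import Fermat.Agent.HeckeDatum.Reduction

/-!
# The Steinberg shape at a prime exactly dividing the level

If a fixed nonzero integer times `(σ² - q²) (σ² - 1)` kills the `lam`-power torsion of `J₀(M)` in
the common kernel of two Hecke equivariant maps to `J₀(M / q)`, then at a Frobenius element `σ`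
at `q` the representation of a newform of level `M` has characteristic polynomial `(X ∓ 1) (X ∓ q)`.
-/

set_option autoImplicit false

noncomputable section

namespace Fermat.Agent.SteinbergExport

open Polynomial ModularCurve CongruenceSubgroup ModularFormClass
open CarayolReduction (tateModule tateMap tateMap_apply badSet not_mem_badSet mem_badSet_of_dvd)

local notation "Qbar" => AlgebraicClosure ℚ
local notation "Gal" => AlgebraicClosure ℚ ≃ₐ[ℚ] AlgebraicClosure ℚ

/-- Hecke equivariant maps to level `N` whose common kernel on `lam`-power torsion is killed by a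
nonzero integer times `(σ² - q²) (σ² - 1)`. -/
def QuarticKilled (M N q lam : ℕ) [NeZero M] [NeZero N] (σ : Gal) : Prop :=
  ∃ π π' : JZero M →+ JZero N,
    (∀ (l : ℕ) (hl : l.Prime), ¬ l ∣ M → ∀ x : JZero M,
      π (heckeOperatorBar M ⟨l, hl⟩ x) = heckeOperatorBar N ⟨l, hl⟩ (π x)) ∧
    (∀ (l : ℕ) (hl : l.Prime), ¬ l ∣ M → ∀ x : JZero M,
      π' (heckeOperatorBar M ⟨l, hl⟩ x) = heckeOperatorBar N ⟨l, hl⟩ (π' x)) ∧
    ∃ C : ℕ, C ≠ 0 ∧ ∀ (n : ℕ) (x : JZero M), lam ^ n • x = 0 → π x = 0 → π' x = 0 →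
      C • (σ • σ • (σ • σ • x - x) - (q * q) • (σ • σ • x - x)) = 0

variable {M : ℕ} [NeZero M] {lam : ℕ}

/-- The determinant at a Frobenius element at a prime other than `lam`. -/
theorem det_frobenius_eq {A : Type} [CommRing A] [IsDomain A] [IsLocalRing A] [IsNoetherianRing A]
    (ρ : GaloisRepAdic A) (hlam : lam.Prime) (hρ : ρ.DetIsCyclotomic lam) {q : ℕ} (hq : q.Prime)
    (hql : q ≠ lam) {P : ValuationSubring Qbar} (hP : P.LiesOverPrime q) {σ : Gal}
    (hσ : P.IsFrobeniusAt σ q) : LinearMap.det (ρ.ρ σ) = (q : A) := by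
  rw [← sub_eq_zero, ← Ideal.mem_bot, ← Ideal.iInf_pow_eq_bot_of_isLocalRing
    (IsLocalRing.maximalIdeal A) (IsLocalRing.maximalIdeal.isMaximal A).ne_top, Submodule.mem_iInf]
  intro n
  have hqn : ¬ q ∣ lam ^ n := fun h =>
    hql ((Nat.prime_dvd_prime_iff_eq hq hlam).mp (hq.dvd_of_dvd_pow h))
  refine Ideal.span_le.mpr ?_ (hρ.2 n σ q fun μ hμ => ?_)
  · rintro x rfl
    rw [Nat.cast_pow]
    exact Ideal.pow_mem_pow hρ.1 n
  · have : NeZero (lam ^ n) := ⟨pow_ne_zero n hlam.ne_zero⟩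
    exact GaloisBasics.frobenius_apply_of_pow_eq_one hP hq hqn hσ hμ

/-- The quartic of Frobenius has determinant zero on the representation of a newform. -/
theorem det_quartic_eq_zero {g : CuspForm (Gamma0 M) 2} (hg : g.IsNewform) (hlam : lam.Prime)
    {q N : ℕ} [NeZero N] (hdvd : N ∣ M) (hne : N ≠ M) {σ : Gal}
    (hkill : QuarticKilled M N q lam σ)
    {A : Type} [CommRing A] [IsDomain A] [IsDiscreteValuationRing A]
    (hl : (lam : A) ∈ IsLocalRing.maximalIdeal A)
    (c : (HeckeEigen.eigenChar hg.1 (badSet M)).range →+* A) (hc : Function.Injective c)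
    (ρ : GaloisRepAdic A) (j : ρ.V →+ tateModule (JZero M) lam) (hj0 : j ≠ 0)
    (hgal : ∀ (τ : Gal) (v : ρ.V) (n : ℕ), (j (ρ.ρ τ v)).1 n = τ • (j v).1 n)
    (hj : ∀ (l : ℕ) (hl' : l.Prime) (hlM : ¬ l ∣ M) (v : ρ.V) (n : ℕ),
      (j (c ((HeckeEigen.eigenChar hg.1 (badSet M)).rangeRestrict
          (CuspForm.heckeAlgebra.T hl' hlM (not_mem_badSet hlM))) • v)).1 n =
        heckeOperatorBar M ⟨l, hl'⟩ ((j v).1 n)) :
    LinearMap.det (quartic (ρ.ρ σ) (q : A)) = 0 := by
  obtain ⟨π, π', hπ, hπ', C, hC, hkill⟩ := hkill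
  have hzero : ∀ p : JZero M →+ JZero N,
      (∀ (l : ℕ) (hl' : l.Prime), ¬ l ∣ M → ∀ x : JZero M,
        p (heckeOperatorBar M ⟨l, hl'⟩ x) = heckeOperatorBar N ⟨l, hl'⟩ (p x)) →
      (tateMap p).comp j = 0 := by
    intro p hp
    by_contra hne'
    refine hg.2 N hdvd hne ?_
    refine CarayolReduction.goodEigensystemOccursAt_of_map hg.1 hdvd
      (HeckeCommute.heckeOperatorsCommuteBar N)
      (CarayolReduction.torsionFactors_of_jacobianFaithful
        (JacCompare.jacobianFaithful_all (fun _ h h' => mem_badSet_of_dvd hdvd h h') hlam))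
      hl c hc _ hne' ?_
    intro l hl' hlM v n
    simp only [AddMonoidHom.comp_apply, tateMap_apply, hj l hl' hlM v n, hp l hl' hlM]
  by_contra hd
  refine hj0 (CarayolReduction.map_eq_zero_of_smul hl j hd fun u => ?_)
  obtain ⟨w, hw⟩ := exists_apply_eq_det_smul (Module.finBasisOfFinrankEq A ρ.V ρ.finrank_eq)
    (quartic (ρ.ρ σ) (q : A)) u
  rw [← hw]
  refine CarayolReduction.tateModule_eq_zero_of_bounded hlam hC fun n => ?_
  have h1 := congrFun (congrArg Subtype.val (DFunLike.congr_fun (hzero π hπ) w)) n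
  have h2 := congrFun (congrArg Subtype.val (DFunLike.congr_fun (hzero π' hπ') w)) n
  have h := hkill n _ (CarayolReduction.tateModule_pow_smul (j w) n) h1 h2
  have hy : (j (ρ.ρ σ (ρ.ρ σ w) - w)).1 n = σ • σ • (j w).1 n - (j w).1 n := by
    rw [map_sub, AddSubgroup.coe_sub, Pi.sub_apply, hgal, hgal]
  rw [quartic_apply, ← Nat.cast_mul, Nat.cast_smul_eq_nsmul, map_sub, map_nsmul,
    AddSubgroup.coe_sub, Pi.sub_apply, hgal, hgal, AddSubgroupClass.coe_nsmul, Pi.smul_apply, hy]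
  exact h

/-- **The Steinberg shape from the killed quartic.** -/
theorem exists_galoisRep_steinberg {g : CuspForm (Gamma0 M) 2} (hg : g.IsNewform)
    (lam : ℕ) [Fact lam.Prime]
    (hkill : ∀ q : ℕ, q.Prime → q ≠ lam → q ∣ M → ¬ q ^ 2 ∣ M →
      ∀ A : ValuationSubring Qbar, A.LiesOverPrime q → ∀ σ : Gal, A.IsFrobeniusAt σ q →
        ∃ _ : NeZero (M / q), QuarticKilled M (M / q) q lam σ)
    (S : Finset ℕ)
    (O' : Type) [CommRing O'] [IsDomain O'] [IsDiscreteValuationRing O']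
    [IsAdicComplete (IsLocalRing.maximalIdeal O') O'] [Finite (IsLocalRing.ResidueField O')]
    [CharZero O'] (hlamO' : (lam : O') ∈ IsLocalRing.maximalIdeal O')
    (chig : CuspForm.heckeAlgebra M 2 (↑S : Set ℕ) →+* ℂ)
    (hchig : ∀ (ℓ : ℕ) (hℓ : ℓ.Prime) (hℓM : ¬ ℓ ∣ M) (hℓS : ℓ ∉ (↑S : Set ℕ)),
      chig (CuspForm.heckeAlgebra.T hℓ hℓM hℓS) = ModularFormClass.qCoeff g ℓ)
    (iota : chig.range →+* O')
    (hlamS : lam ∈ S) (hMS : ∀ q : ℕ, q.Prime → q ∣ M → q ∈ S) :
    ∃ (O'' : Type) (_ : CommRing O'') (_ : IsDomain O'') (_ : IsDiscreteValuationRing O'')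
      (_ : IsAdicComplete (IsLocalRing.maximalIdeal O'') O'')
      (_ : Finite (IsLocalRing.ResidueField O''))
      (_ : CharZero O'') (_ : Algebra O' O'') (_ : Module.Finite O' O'')
      (_ : IsLocalHom (algebraMap O' O'')),
      Function.Injective (algebraMap O' O'') ∧
      ∃ ρ : GaloisRepAdic O'',
        (∀ (ℓ : ℕ) (hℓ : ℓ.Prime) (hℓM : ¬ ℓ ∣ M) (hℓS : ℓ ∉ (↑S : Set ℕ)),
          ∀ A : ValuationSubring Qbar, A.LiesOverPrime ℓ →
            ∀ σ : Gal, A.IsFrobeniusAt σ ℓ →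
              LinearMap.charpoly (ρ.ρ σ) =
                X ^ 2 - C (algebraMap O' O'' ((iota.comp chig.rangeRestrict)
                  (CuspForm.heckeAlgebra.T hℓ hℓM hℓS))) * X + C ((ℓ : O''))) ∧
        (∀ q : ℕ, q.Prime → q ≠ lam → q ∣ M → ¬ q ^ 2 ∣ M →
          ∀ A : ValuationSubring Qbar, A.LiesOverPrime q →
            ∀ σ : Gal, A.IsFrobeniusAt σ q →
              LinearMap.charpoly (ρ.ρ σ) = X ^ 2 - C ((q : O'') + 1) * X + C ((q : O'')) ∨
              LinearMap.charpoly (ρ.ρ σ) = X ^ 2 + C ((q : O'') + 1) * X + C ((q : O''))) := by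
  obtain ⟨O₁, i1, i2, i3, i4, i5, i6, i7, i8, i9, hinj₁, c, hc, hcT⟩ :=
    CarayolReduction.exists_extension hg.1 hMS chig hchig O' iota
  let := i1; let := i7
  have := i2; have := i3; have := i4; have := i5; have := i6; have := i8; have := i9
  have hlam : lam.Prime := Fact.out
  have hl₁ : (lam : O₁) ∈ IsLocalRing.maximalIdeal O₁ := by
    rw [← map_natCast (algebraMap O' O₁)]
    exact map_nonunit (algebraMap O' O₁) _ hlamO'
  obtain ⟨B, j1, j2, j3, j4, j5, j6, j7, j8, j9, hinj₂, ρ, hfrob, j, hj0, hgal, hj⟩ :=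
    TateExport.tateExport M hlam g hg.1 O₁ hl₁ c
  let := j1; let := j7
  have := j2; have := j3; have := j4; have := j5; have := j6; have := j8; have := j9
  let : Algebra O' B := ((algebraMap O₁ B).comp (algebraMap O' O₁)).toAlgebra
  have : IsScalarTower O' O₁ B := IsScalarTower.of_algebraMap_eq fun _ => rfl
  have : Module.Finite O' B := Module.Finite.trans O₁ B
  have : IsLocalHom (algebraMap O' B) :=
    inferInstanceAs (IsLocalHom ((algebraMap O₁ B).comp (algebraMap O' O₁)))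
  have hinj : Function.Injective (algebraMap O' B) := hinj₂.comp hinj₁
  have hl₂ : (lam : B) ∈ IsLocalRing.maximalIdeal B := by
    rw [← map_natCast (algebraMap O₁ B)]
    exact map_nonunit (algebraMap O₁ B) _ hl₁
  have hdet : ρ.DetIsCyclotomic lam := by
    classical
    refine Oddness.detIsCyclotomic_of_frobenius hlam hl₂
      (RepTheory.frobGenerates_finset HeckeDatum.frobeniusPowDense (insert lam M.primeFactors))
      (by simp) ρ fun ℓ hℓ hℓS P hP φ hφ => ?_
    rw [Finset.coe_insert, Set.mem_insert_iff, not_or, Finset.mem_coe, Nat.mem_primeFactors] at hℓS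
    have hℓM : ¬ ℓ ∣ M := fun h => hℓS.2 ⟨hℓ, h, NeZero.ne M⟩
    exact ConductorLevel.det_eq_of_charpoly ρ.finrank_eq (hfrob ℓ hℓ hℓM hℓS.1 P hP φ hφ)
  refine ⟨B, inferInstance, inferInstance, inferInstance, inferInstance, inferInstance,
    inferInstance, inferInstance, inferInstance, inferInstance, hinj, ρ, ?_, ?_⟩
  · intro ℓ hℓ hℓM hℓS A hA σ hσ
    rw [hfrob ℓ hℓ hℓM (fun h => hℓS (h ▸ hlamS)) A hA σ hσ, hcT ℓ hℓ hℓM hℓS]
    rfl
  · intro q hq hql hqM hq2 A hA σ hσ
    obtain ⟨_, hk⟩ := hkill q hq hql hqM hq2 A hA σ hσ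
    exact charpoly_eq_or ρ.finrank_eq _ (Nat.cast_ne_zero.mpr hq.ne_zero)
      (det_frobenius_eq ρ hlam hdet hq hql hA hσ)
      (det_quartic_eq_zero hg hlam (Nat.div_dvd_of_dvd hqM)
        (Nat.div_lt_self (Nat.pos_of_ne_zero (NeZero.ne M)) hq.one_lt).ne hk hl₂
        ((algebraMap O₁ B).comp c) (hinj₂.comp hc) ρ j hj0 hgal hj)

end Fermat.Agent.SteinbergExport
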