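import Mathlib.LinearAlgebra.Charpoly.ToMatrix
import Mathlib.LinearAlgebra.Matrix.Charpoly.Coeff
import Mathlib.LinearAlgebra.Matrix.ToLin
import Mathlib.LinearAlgebra.Matrix.NonsingularInverse
import Mathlib.Tactic.LinearCombination
import Mathlib.Tactic.Abel

/-!
# Two by two matrices killed by the Steinberg quartic

If `S` is an endomorphism of a free module of rank two over a domain, `det S = r ≠ 0` and
`(S² - r²) (S² - 1)` has determinant zero, then the characteristic polynomial of `S` is
`X² ∓ (r + 1) X + r`.
-/

set_option autoImplicit false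

noncomputable section

open Polynomial Matrix

namespace Fermat.Agent.SteinbergExport

variable {R : Type*} [CommRing R]

/-- `(S² - r²) (S² - 1)` for an endomorphism `S`. -/
def quartic {V : Type*} [AddCommGroup V] [Module R V] (S : Module.End R V) (r : R) :
    Module.End R V :=
  (S * S - (r * r) • 1) * (S * S - 1)

/-- The value of `quartic` on a vector. -/
theorem quartic_apply {V : Type*} [AddCommGroup V] [Module R V] (S : Module.End R V) (r : R)
    (v : V) : quartic S r v = S (S (S (S v) - v)) - (r * r) • (S (S v) - v) := by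
  simp [quartic, Module.End.mul_apply]

/-- `det T • u` is in the image of `T`. -/
theorem exists_apply_eq_det_smul {V : Type*} [AddCommGroup V] [Module R V] {ι : Type*} [Fintype ι]
    [DecidableEq ι] (b : Module.Basis ι R V) (T : Module.End R V) (u : V) :
    ∃ w, T w = LinearMap.det T • u := by
  refine ⟨Matrix.toLinAlgEquiv b (LinearMap.toMatrixAlgEquiv b T).adjugate u, ?_⟩
  conv_lhs => rw [← Matrix.toLinAlgEquiv_toMatrixAlgEquiv b T]
  rw [← Module.End.mul_apply, ← map_mul, LinearMap.toMatrixAlgEquiv_toLinAlgEquiv,
    Matrix.mul_adjugate, map_smul, map_one, LinearMap.smul_apply, Module.End.one_apply]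
  congr 1
  exact LinearMap.det_toMatrix b T

/-- A matrix of determinant `r ≠ 0` killed in determinant by the quartic has trace `± (r + 1)`. -/
theorem trace_eq_of_det_eq_zero [IsDomain R] {r : R} (hr : r ≠ 0) (M : Matrix (Fin 2) (Fin 2) R)
    (hdet : M.det = r) (h : ((M * M - (r * r) • 1) * (M * M - 1)).det = 0) :
    M.trace = r + 1 ∨ M.trace = -(r + 1) := by
  have key : ∀ c : R, (M - c • 1).det = c ^ 2 - M.trace * c + r := fun c => by
    rw [← hdet, Matrix.det_fin_two, Matrix.det_fin_two, Matrix.trace_fin_two]
    simp
    ring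
  have hfac : (M * M - (r * r) • 1) * (M * M - 1) =
      (M - r • 1) * (M - (-r) • 1) * ((M - (1 : R) • 1) * (M - (-1 : R) • 1)) := by
    rw [one_smul, neg_one_smul, neg_smul, sub_neg_eq_add, sub_neg_eq_add]
    congr 1
    · rw [sub_mul, mul_add, mul_add, smul_mul_smul_comm, one_mul, Algebra.smul_mul_assoc, one_mul,
        Algebra.mul_smul_comm, mul_one]
      abel
    · rw [sub_mul, mul_add, mul_add, one_mul, mul_one, one_mul]
      abel
  rw [hfac, Matrix.det_mul, Matrix.det_mul, Matrix.det_mul, key, key, key, key, mul_eq_zero,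
    mul_eq_zero, mul_eq_zero] at h
  rcases h with (h | h) | (h | h)
  · refine Or.inl ((mul_right_inj' hr).mp ?_)
    linear_combination -h
  · refine Or.inr ((mul_right_inj' hr).mp ?_)
    linear_combination h
  · exact Or.inl (by linear_combination -h)
  · exact Or.inr (by linear_combination h)

/-- Steinberg characteristic polynomials from the quartic. -/
theorem charpoly_eq_or {V : Type*} [AddCommGroup V] [Module R V] [Module.Free R V]
    [Module.Finite R V] [IsDomain R] (hV : Module.finrank R V = 2) (S : Module.End R V) {r : R}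
    (hr : r ≠ 0) (hdet : LinearMap.det S = r) (h : LinearMap.det (quartic S r) = 0) :
    LinearMap.charpoly S = X ^ 2 - C (r + 1) * X + C r ∨
      LinearMap.charpoly S = X ^ 2 + C (r + 1) * X + C r := by
  set b := Module.finBasisOfFinrankEq R V hV
  set M := LinearMap.toMatrixAlgEquiv b S with hM
  have hdetM : ∀ T : Module.End R V, (LinearMap.toMatrixAlgEquiv b T).det = LinearMap.det T :=
    fun T => LinearMap.det_toMatrix b T
  have hM1 : M.det = r := (hdetM S).trans hdet
  have hq : ((M * M - (r * r) • 1) * (M * M - 1)).det = 0 := by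
    rw [← h, ← hdetM]
    simp [quartic, hM, map_mul, map_sub]
  rw [← LinearMap.charpoly_toMatrix S b, show LinearMap.toMatrix b b S = M from rfl,
    Matrix.charpoly_fin_two, hM1]
  rcases trace_eq_of_det_eq_zero hr M hM1 hq with e | e <;> rw [e]
  · exact Or.inl rfl
  · refine Or.inr ?_
    rw [map_neg, neg_mul, sub_neg_eq_add]

end Fermat.Agent.SteinbergExport
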